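import Fermat.Agent.S16.Defs

/-!
# S16, work package FR (part a): algebra of the Fricke operator `hat` and of the trace `tr`

Exact shapes of `Fermat.Agent.S16.Skel` (helper556 skeleton), namespace `Fermat.Agent.S16.H769`.
-/

set_option autoImplicit false

noncomputable section

namespace Fermat.Agent.S16.H769

open UpperHalfPlane ModularForm CongruenceSubgroup MatrixGroups
open Fermat.Agent.S20 (MF SF)
open scoped Manifold

variable (p : ℕ) [Fact p.Prime]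

lemma p_ne_zero : p ≠ 0 := (Fact.out : p.Prime).ne_zero

lemma p_ne_zero' : (p : ℂ) ≠ 0 := by exact_mod_cast p_ne_zero p

lemma val_frickeGL :
    ((frickeGL p : GL (Fin 2) ℝ) : Matrix (Fin 2) (Fin 2) ℝ) = !![0, -1; (p : ℝ), 0] := by
  simp [frickeGL, p_ne_zero p]

lemma det_frickeGL : ((frickeGL p).det : ℝ) = p := by
  rw [Matrix.GeneralLinearGroup.val_det_apply, val_frickeGL, Matrix.det_fin_two_of]
  ring

lemma det_frickeGL_pos : 0 < ((frickeGL p).det : ℝ) := by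
  rw [det_frickeGL]
  exact_mod_cast Nat.pos_of_ne_zero (p_ne_zero p)

lemma σ_frickeGL : UpperHalfPlane.σ (frickeGL p) = .refl ℝ ℂ := by
  rw [UpperHalfPlane.σ, if_pos (det_frickeGL_pos p)]

lemma denom_frickeGL (z : ℍ) : UpperHalfPlane.denom (frickeGL p) z = (p : ℂ) * z := by
  simp [UpperHalfPlane.denom, val_frickeGL]

theorem coe_fricke_smul (z : ℍ) : ((frickeGL p • z : ℍ) : ℂ) = -1 / ((p : ℂ) * z) := by
  rw [UpperHalfPlane.coe_smul_of_det_pos (det_frickeGL_pos p)]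
  simp [UpperHalfPlane.num, UpperHalfPlane.denom, val_frickeGL]

theorem slash_frickeGL_apply (k : ℤ) (F : ℍ → ℂ) (z : ℍ) :
    (F ∣[k] frickeGL p) z = (p : ℂ)⁻¹ * ((z : ℂ) ^ (-k) * F (frickeGL p • z)) := by
  have hp' : (p : ℂ) ≠ 0 := p_ne_zero' p
  rw [ModularForm.slash_apply, σ_frickeGL, det_frickeGL, denom_frickeGL]
  simp only [ContinuousAlgEquiv.refl_apply, Nat.abs_cast, Complex.ofReal_natCast]
  rw [mul_zpow, zpow_sub₀ hp', zpow_one, zpow_neg, zpow_neg]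
  field_simp

theorem hat_apply (k : ℤ) (F : ℍ → ℂ) (z : ℍ) :
    hat p k F z = (z : ℂ) ^ (-k) * F (frickeGL p • z) := by
  have hp' : (p : ℂ) ≠ 0 := p_ne_zero' p
  rw [hat, Pi.smul_apply, slash_frickeGL_apply, smul_eq_mul, ← mul_assoc, mul_inv_cancel₀ hp',
    one_mul]

theorem hat_add (k : ℤ) (F G : ℍ → ℂ) : hat p k (F + G) = hat p k F + hat p k G := by
  funext z
  simp only [hat_apply, Pi.add_apply]
  ring

theorem hat_smul (k : ℤ) (c : ℂ) (F : ℍ → ℂ) : hat p k (c • F) = c • hat p k F := by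
  funext z
  simp only [hat_apply, Pi.smul_apply, smul_eq_mul]
  ring

theorem hat_mul (k₁ k₂ : ℤ) (F₁ F₂ : ℍ → ℂ) :
    hat p (k₁ + k₂) (F₁ * F₂) = hat p k₁ F₁ * hat p k₂ F₂ := by
  funext z
  simp only [hat_apply, Pi.mul_apply]
  rw [neg_add, zpow_add₀ (ne_zero z)]
  ring

theorem hat_one : hat p 0 (1 : ℍ → ℂ) = 1 := by
  funext z
  simp [hat_apply]

theorem hat_pow (k : ℤ) (n : ℕ) (F : ℍ → ℂ) : hat p (n * k) (F ^ n) = hat p k F ^ n := by
  induction n with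
  | zero => simpa using hat_one p
  | succ n ih =>
    rw [pow_succ, pow_succ, ← ih, ← hat_mul]
    congr 1
    push_cast
    ring

theorem fricke_smul_fricke_smul (z : ℍ) : frickeGL p • (frickeGL p • z) = z := by
  apply UpperHalfPlane.ext
  rw [coe_fricke_smul, coe_fricke_smul]
  have hp' : (p : ℂ) ≠ 0 := p_ne_zero' p
  have hz : (z : ℂ) ≠ 0 := ne_zero z
  field_simp

theorem hat_hat {k : ℤ} (hk : Even k) (F : ℍ → ℂ) :
    hat p k (hat p k F) = ((p : ℂ) ^ k) • F := by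
  funext z
  have hp' : (p : ℂ) ≠ 0 := p_ne_zero' p
  have hz : (z : ℂ) ≠ 0 := ne_zero z
  rw [hat_apply, hat_apply, fricke_smul_fricke_smul, coe_fricke_smul, Pi.smul_apply, smul_eq_mul,
    ← mul_assoc, ← mul_zpow]
  congr 1
  have h1 : (z : ℂ) * (-1 / ((p : ℂ) * z)) = -(p : ℂ)⁻¹ := by
    field_simp
  rw [h1, zpow_neg, ← inv_zpow, inv_neg, inv_inv, Even.neg_zpow hk]


lemma coe_ST_pow (j : ℕ) :
    ((ModularGroup.S * ModularGroup.T ^ j : SL(2, ℤ)) : Matrix (Fin 2) (Fin 2) ℤ)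
      = !![0, -1; 1, (j : ℤ)] := by
  rw [Matrix.SpecialLinearGroup.coe_mul, ← zpow_natCast, ModularGroup.coe_T_zpow,
    ModularGroup.coe_S]
  ext a b
  fin_cases a <;> fin_cases b <;> simp [Matrix.mul_apply, Fin.sum_univ_two]

lemma denom_ST_pow (j : ℕ) (z : ℍ) :
    UpperHalfPlane.denom (ModularGroup.S * ModularGroup.T ^ j : SL(2, ℤ)) z = (z : ℂ) + j := by
  rw [ModularGroup.denom_apply, coe_ST_pow]
  simp

lemma coe_ST_pow_smul (j : ℕ) (z : ℍ) :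
    (((ModularGroup.S * ModularGroup.T ^ j : SL(2, ℤ)) • z : ℍ) : ℂ) = -1 / ((z : ℂ) + j) := by
  rw [UpperHalfPlane.coe_specialLinearGroup_apply, coe_ST_pow]
  simp

lemma fricke_smul_heckeMatrix_smul (j : ℕ) (z : ℍ) :
    frickeGL p • (heckeMatrix p j • z) = (ModularGroup.S * ModularGroup.T ^ j : SL(2, ℤ)) • z := by
  apply UpperHalfPlane.ext
  rw [coe_fricke_smul, coe_heckeMatrix_smul (p_ne_zero p), coe_ST_pow_smul]
  have hp' : (p : ℂ) ≠ 0 := p_ne_zero' p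
  field_simp

theorem heckeU_hat_apply (k : ℤ) (F : ℍ → ℂ) (z : ℍ) :
    heckeU k p (hat p k F) z =
      (p : ℂ) ^ (k - 1) * ∑ j ∈ Finset.range p,
        (F ∣[k] (ModularGroup.S * ModularGroup.T ^ j : SL(2, ℤ))) z := by
  have hp' : (p : ℂ) ≠ 0 := p_ne_zero' p
  rw [heckeU_apply k (p_ne_zero p), Finset.mul_sum, Finset.mul_sum]
  refine Finset.sum_congr rfl fun j _ => ?_
  rw [hat_apply, fricke_smul_heckeMatrix_smul, ModularForm.SL_slash_apply, denom_ST_pow,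
    coe_heckeMatrix_smul (p_ne_zero p), div_zpow, zpow_sub₀ hp', zpow_one, zpow_neg, zpow_neg]
  have h1 : ((p : ℂ) ^ k) ≠ 0 := zpow_ne_zero _ hp'
  field_simp

/-- `tr F = F + ∑_{j<p} F ∣[k] (S T^j)`. -/
theorem tr_eq_sum (k : ℤ) (F : ℍ → ℂ) :
    tr p k F = F + ∑ j ∈ Finset.range p, F ∣[k] (ModularGroup.S * ModularGroup.T ^ j) := by
  have hp' : (p : ℂ) ≠ 0 := p_ne_zero' p
  funext z
  rw [tr, Pi.add_apply, Pi.add_apply, Pi.smul_apply, heckeU_hat_apply, Finset.sum_apply,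
    smul_eq_mul, ← mul_assoc, ← zpow_add₀ hp']
  simp


/-! ### level one -/

lemma slash_eq_of_mem_MF_top {k : ℤ} {H : ℍ → ℂ} (hH : H ∈ MF ⊤ k) (γ : SL(2, ℤ)) :
    H ∣[k] γ = H := hH.2.1 γ (Subgroup.mem_top _)

lemma apply_S_smul_of_mem_MF_top {k : ℤ} {H : ℍ → ℂ} (hH : H ∈ MF ⊤ k) (w : ℍ) :
    H (ModularGroup.S • w) = (w : ℂ) ^ k * H w := by
  have h := congrFun (slash_eq_of_mem_MF_top hH ModularGroup.S) w
  rw [ModularForm.SL_slash_apply, ModularGroup.denom_S] at h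
  have hw : (w : ℂ) ≠ 0 := ne_zero w
  rw [← h, zpow_neg, mul_comm (H _), ← mul_assoc, mul_inv_cancel₀ (zpow_ne_zero _ hw), one_mul]

lemma coe_S_smul (w : ℍ) : ((ModularGroup.S • w : ℍ) : ℂ) = -1 / (w : ℂ) := by
  rw [UpperHalfPlane.modular_S_smul]
  simp [neg_div, inv_neg]

omit [Fact p.Prime] in
lemma Vp_apply (F : ℍ → ℂ) (z : ℍ) : Vp p F z = F (heckeDiagMatrix p • z) := rfl

lemma fricke_smul_eq_S_smul_diag (z : ℍ) :
    frickeGL p • z = ModularGroup.S • (heckeDiagMatrix p • z) := by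
  apply UpperHalfPlane.ext
  rw [coe_fricke_smul, coe_S_smul, coe_heckeDiagMatrix_smul (p_ne_zero p)]

lemma diag_smul_fricke_smul (z : ℍ) :
    heckeDiagMatrix p • (frickeGL p • z) = ModularGroup.S • z := by
  apply UpperHalfPlane.ext
  rw [coe_heckeDiagMatrix_smul (p_ne_zero p), coe_fricke_smul, coe_S_smul]
  have hp' : (p : ℂ) ≠ 0 := p_ne_zero' p
  have hz : (z : ℂ) ≠ 0 := ne_zero z
  field_simp

theorem hat_levelOne {k : ℤ} {H : ℍ → ℂ} (hH : H ∈ MF ⊤ k) :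
    hat p k H = ((p : ℂ) ^ k) • Vp p H := by
  funext z
  have hz : (z : ℂ) ≠ 0 := ne_zero z
  rw [hat_apply, fricke_smul_eq_S_smul_diag, apply_S_smul_of_mem_MF_top hH,
    coe_heckeDiagMatrix_smul (p_ne_zero p), Pi.smul_apply, smul_eq_mul, Vp_apply, mul_zpow,
    zpow_neg]
  field_simp

theorem hat_Vp {k : ℤ} {H : ℍ → ℂ} (hH : H ∈ MF ⊤ k) : hat p k (Vp p H) = H := by
  funext z
  have hz : (z : ℂ) ≠ 0 := ne_zero z
  rw [hat_apply, Vp_apply, diag_smul_fricke_smul, apply_S_smul_of_mem_MF_top hH, zpow_neg]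
  field_simp

theorem tr_mul_levelOne {a : ℤ} (k : ℤ) {H : ℍ → ℂ} (hH : H ∈ MF ⊤ a) (F : ℍ → ℂ) :
    tr p (a + k) (H * F) = H * tr p k F := by
  rw [tr_eq_sum, tr_eq_sum, mul_add, Finset.mul_sum]
  congr 1
  refine Finset.sum_congr rfl fun j _ => ?_
  rw [ModularForm.mul_slash_SL2, slash_eq_of_mem_MF_top hH]

theorem tr_levelOne {k : ℤ} {H : ℍ → ℂ} (hH : H ∈ MF ⊤ k) :
    tr p k H = ((p : ℂ) + 1) • H := by
  rw [tr_eq_sum]
  simp only [slash_eq_of_mem_MF_top hH, Finset.sum_const, Finset.card_range, add_smul, one_smul]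
  rw [add_comm]
  congr 1
  rw [← Nat.cast_smul_eq_nsmul ℂ]

end Fermat.Agent.S16.H769
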