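import Fermat.Agent.S16.H769.FRa
import Fermat.Agent.S20.C0_helper516

/-!
# S16, work package FR (part b): `hat` and `Vp` preserve modularity on `Γ₀(p)`
-/

set_option autoImplicit false
set_option linter.unusedSectionVars false

noncomputable section

namespace Fermat.Agent.S16.H769

open UpperHalfPlane ModularForm CongruenceSubgroup MatrixGroups
open Fermat.Agent.S20 (MF SF)
open scoped Manifold

section general

variable {Γ : Subgroup SL(2, ℤ)} [Γ.FiniteIndex] {k : ℤ} {F : ℍ → ℂ}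

lemma isCusp_map_rat_smul_infty (g : GL (Fin 2) ℚ) :
    IsCusp (Matrix.GeneralLinearGroup.map (Rat.castHom ℝ) g • (OnePoint.infty : OnePoint ℝ))
      𝒮ℒ := by
  rw [isCusp_SL2Z_iff]
  exact ⟨g • OnePoint.infty, by rw [← Rat.coe_castHom, OnePoint.map_smul, OnePoint.map_infty]⟩

/-- A modular form stays bounded at `i∞` after slashing with any rational matrix. -/
theorem isBoundedAtImInfty_slash_rat (hF : F ∈ MF Γ k) (g : GL (Fin 2) ℚ) :
    IsBoundedAtImInfty (F ∣[k] (Matrix.GeneralLinearGroup.map (Rat.castHom ℝ) g)) := by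
  obtain ⟨F', rfl⟩ := Fermat.Agent.S20.C0h516.mem_MF_iff_exists.mp hF
  have hc : IsCusp
      (Matrix.GeneralLinearGroup.map (Rat.castHom ℝ) g • (OnePoint.infty : OnePoint ℝ))
      (Γ : Subgroup (GL (Fin 2) ℝ)) :=
    (Subgroup.IsArithmetic.isCusp_iff_isCusp_SL2Z _).mpr (isCusp_map_rat_smul_infty g)
  exact ModularFormClass.bdd_at_cusps F' hc _ rfl

/-- A cusp form stays zero at `i∞` after slashing with any rational matrix. -/
theorem isZeroAtImInfty_slash_rat (hF : F ∈ SF Γ k) (g : GL (Fin 2) ℚ) :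
    IsZeroAtImInfty (F ∣[k] (Matrix.GeneralLinearGroup.map (Rat.castHom ℝ) g)) := by
  obtain ⟨F', rfl⟩ := Fermat.Agent.S20.C0h516.mem_SF_iff_exists.mp hF
  have hc : IsCusp
      (Matrix.GeneralLinearGroup.map (Rat.castHom ℝ) g • (OnePoint.infty : OnePoint ℝ))
      (Γ : Subgroup (GL (Fin 2) ℝ)) :=
    (Subgroup.IsArithmetic.isCusp_iff_isCusp_SL2Z _).mpr (isCusp_map_rat_smul_infty g)
  exact CuspFormClass.zero_at_cusps F' hc _ rfl

end general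

variable (p : ℕ) [Fact p.Prime]

/-- the Fricke matrix over `ℚ` -/
def frickeQ : GL (Fin 2) ℚ :=
  Matrix.GeneralLinearGroup.mkOfDetNeZero !![0, -1; (p : ℚ), 0]
    (by rw [Matrix.det_fin_two_of]; simpa using p_ne_zero p)

lemma frickeGL_mul_eq_map (γ : SL(2, ℤ)) :
    frickeGL p * (γ : GL (Fin 2) ℝ) =
      Matrix.GeneralLinearGroup.map (Rat.castHom ℝ)
        (frickeQ p * Matrix.SpecialLinearGroup.mapGL ℚ γ) := by
  ext i j
  fin_cases i <;> fin_cases j <;>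
    simp [frickeQ, val_frickeGL, Matrix.mul_apply, Fin.sum_univ_two,
      Matrix.GeneralLinearGroup.mkOfDetNeZero]

lemma dvd_of_mem_Gamma0 {γ : SL(2, ℤ)} (hγ : γ ∈ Gamma0 p) : (p : ℤ) ∣ γ 1 0 := by
  rw [Gamma0_mem] at hγ
  exact (ZMod.intCast_zmod_eq_zero_iff_dvd _ _).mp hγ

lemma mem_Gamma0_of_dvd {γ : SL(2, ℤ)} (h : (p : ℤ) ∣ γ 1 0) : γ ∈ Gamma0 p := by
  rw [Gamma0_mem]
  exact (ZMod.intCast_zmod_eq_zero_iff_dvd _ _).mpr h

lemma det_rel (γ : SL(2, ℤ)) : γ 0 0 * γ 1 1 - γ 0 1 * γ 1 0 = 1 := by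
  have h := γ.det_coe
  rw [Matrix.det_fin_two] at h
  exact h

/-- The Fricke matrix normalises `Γ₀(p)`. -/
lemma exists_frickeConj {γ : SL(2, ℤ)} (hγ : γ ∈ Gamma0 p) :
    ∃ γ' ∈ Gamma0 p, frickeGL p * (γ : GL (Fin 2) ℝ) = (γ' : GL (Fin 2) ℝ) * frickeGL p := by
  obtain ⟨c', hc'⟩ := dvd_of_mem_Gamma0 p hγ
  have hdet := det_rel γ
  refine ⟨⟨!![γ 1 1, -c'; -((p : ℤ) * γ 0 1), γ 0 0], ?_⟩, ?_, ?_⟩
  · rw [Matrix.det_fin_two_of]
    rw [hc'] at hdet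
    linear_combination hdet
  · apply mem_Gamma0_of_dvd
    simp
  · have hc'' : ((γ 1 0 : ℤ) : ℝ) = (p : ℝ) * (c' : ℝ) := by exact_mod_cast hc'
    ext i j
    fin_cases i <;> fin_cases j <;>
      simp [val_frickeGL, Matrix.mul_apply, Fin.sum_univ_two, hc''] <;> ring

theorem hat_slash_of_mem_Gamma0 {k : ℤ} {F : ℍ → ℂ}
    (hF : ∀ γ ∈ Gamma0 p, F ∣[k] γ = F) {γ : SL(2, ℤ)} (hγ : γ ∈ Gamma0 p) :
    hat p k F ∣[k] γ = hat p k F := by
  obtain ⟨γ', hγ', h⟩ := exists_frickeConj p hγ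
  rw [hat, ModularForm.SL_smul_slash, ModularForm.SL_slash, ← SlashAction.slash_mul, h,
    SlashAction.slash_mul, ← ModularForm.SL_slash, hF γ' hγ']

theorem hat_mem_MF {k : ℤ} {F : ℍ → ℂ} (hF : F ∈ MF (Gamma0 p) k) :
    hat p k F ∈ MF (Gamma0 p) k := by
  refine ⟨?_, fun γ hγ => hat_slash_of_mem_Gamma0 p hF.2.1 hγ, fun γ => ?_⟩
  · exact (hF.1.slash k (frickeGL p)).const_smul (p : ℂ)
  · rw [hat, ModularForm.SL_smul_slash, ModularForm.SL_slash, ← SlashAction.slash_mul,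
      frickeGL_mul_eq_map]
    exact (isBoundedAtImInfty_slash_rat hF _).const_smul_left _

theorem hat_mem_SF {k : ℤ} {F : ℍ → ℂ} (hF : F ∈ SF (Gamma0 p) k) :
    hat p k F ∈ SF (Gamma0 p) k := by
  refine ⟨?_, fun γ hγ => hat_slash_of_mem_Gamma0 p hF.2.1 hγ, fun γ => ?_⟩
  · exact (hF.1.slash k (frickeGL p)).const_smul (p : ℂ)
  · rw [hat, ModularForm.SL_smul_slash, ModularForm.SL_slash, ← SlashAction.slash_mul,
      frickeGL_mul_eq_map]
    exact (isZeroAtImInfty_slash_rat hF _).smul _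

lemma MF_top_le (Γ : Subgroup SL(2, ℤ)) (k : ℤ) : MF ⊤ k ≤ MF Γ k :=
  fun _ hf => ⟨hf.1, fun γ _ => hf.2.1 γ (Subgroup.mem_top _), hf.2.2⟩

theorem Vp_mem_MF {k : ℤ} {H : ℍ → ℂ} (hH : H ∈ MF ⊤ k) : Vp p H ∈ MF (Gamma0 p) k := by
  have h1 : hat p k H ∈ MF (Gamma0 p) k := hat_mem_MF p (MF_top_le _ k hH)
  rw [hat_levelOne p hH] at h1
  have hp' : ((p : ℂ) ^ k) ≠ 0 := zpow_ne_zero _ (p_ne_zero' p)
  have := (MF (Gamma0 p) k).smul_mem ((p : ℂ) ^ k)⁻¹ h1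
  rwa [smul_smul, inv_mul_cancel₀ hp', one_smul] at this

end Fermat.Agent.S16.H769
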