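import Fermat.Agent.S16.H769.FRb

/-!
# S16, work package FR (part c): the trace `tr` lands in level one
-/

set_option autoImplicit false
set_option linter.unusedSectionVars false

noncomputable section

namespace Fermat.Agent.S16.H769

open UpperHalfPlane ModularForm CongruenceSubgroup MatrixGroups
open Fermat.Agent.S20 (MF SF)
open scoped Manifold

local notation "Sm" => ModularGroup.S
local notation "Tm" => ModularGroup.T

variable (p : ℕ) [Fact p.Prime]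

section invariance

variable {k : ℤ} {F : ℍ → ℂ} (hF : ∀ γ ∈ Gamma0 p, F ∣[k] γ = F)
include hF

lemma slash_mul_of_mem {γ₀ : SL(2, ℤ)} (h : γ₀ ∈ Gamma0 p) (g : SL(2, ℤ)) :
    F ∣[k] (γ₀ * g) = F ∣[k] g := by
  rw [SlashAction.slash_mul, hF γ₀ h]

lemma slash_eq_of_mul_inv_mem {g g' : SL(2, ℤ)} (h : g * g'⁻¹ ∈ Gamma0 p) :
    F ∣[k] g = F ∣[k] g' := by
  have := slash_mul_of_mem p hF h g'
  rwa [inv_mul_cancel_right] at this

end invariance

lemma T_mem_Gamma0 : Tm ∈ Gamma0 p := by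
  apply mem_Gamma0_of_dvd
  rw [ModularGroup.coe_T]
  simp

lemma coe_ST_pow_S (j : ℕ) :
    ((Sm * Tm ^ j * Sm : SL(2, ℤ)) : Matrix (Fin 2) (Fin 2) ℤ) = !![-1, 0; (j : ℤ), -1] := by
  rw [Matrix.SpecialLinearGroup.coe_mul, coe_ST_pow, ModularGroup.coe_S]
  ext a b
  fin_cases a <;> fin_cases b <;> simp [Matrix.mul_apply, Fin.sum_univ_two]

lemma inv_apply_10 (g : SL(2, ℤ)) : (g⁻¹ : SL(2, ℤ)) 1 0 = - g 1 0 := by
  rw [Matrix.SpecialLinearGroup.coe_inv, Matrix.adjugate_fin_two]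
  simp

lemma inv_apply_00 (g : SL(2, ℤ)) : (g⁻¹ : SL(2, ℤ)) 0 0 = g 1 1 := by
  rw [Matrix.SpecialLinearGroup.coe_inv, Matrix.adjugate_fin_two]
  simp

/-- `(g * h⁻¹) 1 0 = g 1 0 * h 1 1 - g 1 1 * h 1 0` -/
lemma mul_inv_apply_10 (g h : SL(2, ℤ)) :
    (g * h⁻¹ : SL(2, ℤ)) 1 0 = g 1 0 * h 1 1 - g 1 1 * h 1 0 := by
  rw [Matrix.SpecialLinearGroup.coe_mul, Matrix.mul_apply, Fin.sum_univ_two, inv_apply_10,
    inv_apply_00]
  ring

lemma mul_inv_mem_Gamma0_iff (g h : SL(2, ℤ)) :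
    g * h⁻¹ ∈ Gamma0 p ↔ (p : ℤ) ∣ g 1 0 * h 1 1 - g 1 1 * h 1 0 := by
  rw [Gamma0_mem, ZMod.intCast_zmod_eq_zero_iff_dvd, mul_inv_apply_10]

section steps

variable {k : ℤ} {F : ℍ → ℂ} (hF : ∀ γ ∈ Gamma0 p, F ∣[k] γ = F)
include hF

lemma slash_ST_pow_p : F ∣[k] (Sm * Tm ^ p) = F ∣[k] (Sm * Tm ^ 0) := by
  apply slash_eq_of_mul_inv_mem p hF
  rw [mul_inv_mem_Gamma0_iff]
  have h1 := coe_ST_pow p
  have h2 := coe_ST_pow 0
  have e1 : (Sm * Tm ^ p : SL(2, ℤ)) 1 0 = 1 := by rw [h1]; rfl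
  have e2 : (Sm * Tm ^ p : SL(2, ℤ)) 1 1 = p := by rw [h1]; rfl
  have e3 : (Sm * Tm ^ 0 : SL(2, ℤ)) 1 0 = 1 := by rw [h2]; rfl
  have e4 : (Sm * Tm ^ 0 : SL(2, ℤ)) 1 1 = 0 := by rw [h2]; simp
  rw [e1, e2, e3, e4]
  simp

lemma slash_S_S : F ∣[k] (Sm * Tm ^ 0 * Sm) = F := by
  have h : (Sm * Tm ^ 0 * Sm : SL(2, ℤ)) ∈ Gamma0 p := by
    apply mem_Gamma0_of_dvd
    rw [coe_ST_pow_S]
    simp
  exact hF _ h

lemma slash_ST_pow_S {j j' : ℕ} (h : (p : ℤ) ∣ (j : ℤ) * j' + 1) :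
    F ∣[k] (Sm * Tm ^ j * Sm) = F ∣[k] (Sm * Tm ^ j') := by
  apply slash_eq_of_mul_inv_mem p hF
  rw [mul_inv_mem_Gamma0_iff]
  have h1 := coe_ST_pow_S j
  have h2 := coe_ST_pow j'
  have e1 : (Sm * Tm ^ j * Sm : SL(2, ℤ)) 1 0 = j := by rw [h1]; rfl
  have e2 : (Sm * Tm ^ j * Sm : SL(2, ℤ)) 1 1 = -1 := by rw [h1]; rfl
  have e3 : (Sm * Tm ^ j' : SL(2, ℤ)) 1 0 = 1 := by rw [h2]; rfl
  have e4 : (Sm * Tm ^ j' : SL(2, ℤ)) 1 1 = j' := by rw [h2]; rfl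
  rw [e1, e2, e3, e4]
  convert h using 1
  ring

end steps


/-- the explicit trace sum -/
def trSum (k : ℤ) (F : ℍ → ℂ) : ℍ → ℂ :=
  F + ∑ j ∈ Finset.range p, F ∣[k] (Sm * Tm ^ j)

lemma tr_eq_trSum (k : ℤ) (F : ℍ → ℂ) : tr p k F = trSum p k F := tr_eq_sum p k F

/-- the involution `j ↦ -1/j` on `{1, …, p-1}` -/
def negInv (j : ℕ) : ℕ := (-((j : ZMod p))⁻¹).val

lemma negInv_lt (j : ℕ) : negInv p j < p := ZMod.val_lt _

lemma natCast_ne_zero_of_mem_Ico {j : ℕ} (hj : j ∈ Finset.Ico 1 p) : (j : ZMod p) ≠ 0 := by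
  rw [Finset.mem_Ico] at hj
  intro h
  rw [ZMod.natCast_eq_zero_iff] at h
  exact absurd (Nat.le_of_dvd (by omega) h) (by omega)

lemma negInv_cast (j : ℕ) : ((negInv p j : ℕ) : ZMod p) = -((j : ZMod p))⁻¹ := by
  rw [negInv, ZMod.natCast_zmod_val]

lemma negInv_mem_Ico {j : ℕ} (hj : j ∈ Finset.Ico 1 p) : negInv p j ∈ Finset.Ico 1 p := by
  rw [Finset.mem_Ico]
  refine ⟨?_, negInv_lt p j⟩
  rw [Nat.one_le_iff_ne_zero, negInv]
  intro h
  rw [ZMod.val_eq_zero, neg_eq_zero, inv_eq_zero] at h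
  exact natCast_ne_zero_of_mem_Ico p hj h

lemma negInv_negInv {j : ℕ} (hj : j ∈ Finset.Ico 1 p) : negInv p (negInv p j) = j := by
  have hj' := natCast_ne_zero_of_mem_Ico p hj
  rw [negInv, negInv_cast, inv_neg, neg_neg, inv_inv, ZMod.val_natCast]
  exact Nat.mod_eq_of_lt (Finset.mem_Ico.mp hj).2

lemma dvd_mul_negInv {j : ℕ} (hj : j ∈ Finset.Ico 1 p) : (p : ℤ) ∣ (j : ℤ) * negInv p j + 1 := by
  have hj' := natCast_ne_zero_of_mem_Ico p hj
  rw [← ZMod.intCast_zmod_eq_zero_iff_dvd]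
  push_cast
  rw [negInv_cast, mul_neg, mul_inv_cancel₀ hj']
  ring

section steps2

variable {k : ℤ} {F : ℍ → ℂ} (hF : ∀ γ ∈ Gamma0 p, F ∣[k] γ = F)
include hF

theorem trSum_slash_T : trSum p k F ∣[k] Tm = trSum p k F := by
  have hp : 0 < p := Nat.pos_of_ne_zero (p_ne_zero p)
  rw [trSum, SlashAction.add_slash, SlashAction.sum_slash, hF _ (T_mem_Gamma0 p)]
  congr 1
  have h1 : ∀ j ∈ Finset.range p, (F ∣[k] (Sm * Tm ^ j)) ∣[k] Tm = F ∣[k] (Sm * Tm ^ (j + 1)) := by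
    intro j _
    rw [← SlashAction.slash_mul, mul_assoc, ← pow_succ]
  rw [Finset.sum_congr rfl h1]
  have h2 := Finset.sum_range_succ' (fun j => F ∣[k] (Sm * Tm ^ j)) p
  have h3 := Finset.sum_range_succ (fun j => F ∣[k] (Sm * Tm ^ j)) p
  rw [h3, slash_ST_pow_p p hF] at h2
  exact (add_right_cancel h2).symm

theorem trSum_slash_S : trSum p k F ∣[k] Sm = trSum p k F := by
  have hp : 0 < p := Nat.pos_of_ne_zero (p_ne_zero p)
  rw [trSum, SlashAction.add_slash, SlashAction.sum_slash]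
  have h1 : ∀ j ∈ Finset.range p, (F ∣[k] (Sm * Tm ^ j)) ∣[k] Sm = F ∣[k] (Sm * Tm ^ j * Sm) := by
    intro j _
    rw [← SlashAction.slash_mul]
  rw [Finset.sum_congr rfl h1, Finset.range_eq_Ico, Finset.sum_eq_sum_Ico_succ_bot hp,
    Finset.sum_eq_sum_Ico_succ_bot hp, slash_S_S p hF]
  have h0 : F ∣[k] Sm = F ∣[k] (Sm * Tm ^ 0) := by simp
  rw [h0, zero_add]
  have h2 : ∑ j ∈ Finset.Ico 1 p, F ∣[k] (Sm * Tm ^ j * Sm)
      = ∑ j ∈ Finset.Ico 1 p, F ∣[k] (Sm * Tm ^ j) := by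
    refine Finset.sum_nbij' (negInv p) (negInv p) (fun j hj => negInv_mem_Ico p hj)
      (fun j hj => negInv_mem_Ico p hj) (fun j hj => negInv_negInv p hj)
      (fun j hj => negInv_negInv p hj) (fun j hj => ?_)
    exact slash_ST_pow_S p hF (dvd_mul_negInv p hj)
  rw [h2]
  abel

theorem trSum_slash (γ : SL(2, ℤ)) : trSum p k F ∣[k] γ = trSum p k F := by
  have hγ : γ ∈ Subgroup.closure ({Sm, Tm} : Set SL(2, ℤ)) := by
    rw [SpecialLinearGroup.SL2Z_generators]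
    exact Subgroup.mem_top _
  induction hγ using Subgroup.closure_induction with
  | mem x hx =>
    rcases hx with rfl | rfl
    · exact trSum_slash_S p hF
    · exact trSum_slash_T p hF
  | one => exact SlashAction.slash_one _ _
  | mul x y _ _ hx hy => rw [SlashAction.slash_mul, hx, hy]
  | inv x _ hx =>
    have h := congrArg (fun g => g ∣[k] x⁻¹) hx
    have h' : (trSum p k F ∣[k] x) ∣[k] x⁻¹ = trSum p k F ∣[k] x⁻¹ := h
    rw [← SlashAction.slash_mul, mul_inv_cancel, SlashAction.slash_one] at h'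
    exact h'.symm

end steps2

lemma isBoundedAtImInfty_sum {ι : Type*} (s : Finset ι) (f : ι → ℍ → ℂ)
    (h : ∀ i ∈ s, IsBoundedAtImInfty (f i)) : IsBoundedAtImInfty (∑ i ∈ s, f i) := by
  classical
  induction s using Finset.induction_on with
  | empty =>
    rw [Finset.sum_empty]
    exact zero_form_isBoundedAtImInfty
  | insert a s ha ih =>
    rw [Finset.sum_insert ha]
    exact (h a (Finset.mem_insert_self a s)).add (ih fun i hi => h i (Finset.mem_insert_of_mem hi))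

lemma isZeroAtImInfty_sum {ι : Type*} (s : Finset ι) (f : ι → ℍ → ℂ)
    (h : ∀ i ∈ s, IsZeroAtImInfty (f i)) : IsZeroAtImInfty (∑ i ∈ s, f i) := by
  classical
  induction s using Finset.induction_on with
  | empty =>
    rw [Finset.sum_empty]
    exact Filter.zero_zeroAtFilter _
  | insert a s ha ih =>
    rw [Finset.sum_insert ha]
    exact (h a (Finset.mem_insert_self a s)).add (ih fun i hi => h i (Finset.mem_insert_of_mem hi))

lemma mdiff_sum {ι : Type*} (s : Finset ι) (f : ι → ℍ → ℂ)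
    (h : ∀ i ∈ s, MDiff (f i)) : MDiff (∑ i ∈ s, f i) := by
  classical
  induction s using Finset.induction_on with
  | empty =>
    rw [Finset.sum_empty]
    exact mdifferentiable_const
  | insert a s ha ih =>
    rw [Finset.sum_insert ha]
    exact (h a (Finset.mem_insert_self a s)).add (ih fun i hi => h i (Finset.mem_insert_of_mem hi))

theorem tr_mem_MF {k : ℤ} {F : ℍ → ℂ} (hF : F ∈ MF (Gamma0 p) k) : tr p k F ∈ MF ⊤ k := by
  rw [tr_eq_trSum]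
  refine ⟨?_, fun γ _ => trSum_slash p hF.2.1 γ, fun γ => ?_⟩
  · exact hF.1.add (mdiff_sum _ _ fun j _ => hF.1.slash k _)
  · rw [trSum, SlashAction.add_slash, SlashAction.sum_slash]
    refine (hF.2.2 γ).add (isBoundedAtImInfty_sum _ _ fun j _ => ?_)
    rw [← SlashAction.slash_mul]
    exact hF.2.2 _

theorem tr_mem_SF {k : ℤ} {F : ℍ → ℂ} (hF : F ∈ SF (Gamma0 p) k) : tr p k F ∈ SF ⊤ k := by
  rw [tr_eq_trSum]
  refine ⟨?_, fun γ _ => trSum_slash p hF.2.1 γ, fun γ => ?_⟩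
  · exact hF.1.add (mdiff_sum _ _ fun j _ => hF.1.slash k _)
  · rw [trSum, SlashAction.add_slash, SlashAction.sum_slash]
    refine (hF.2.2 γ).add (isZeroAtImInfty_sum _ _ fun j _ => ?_)
    rw [← SlashAction.slash_mul]
    exact hF.2.2 _

end Fermat.Agent.S16.H769
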