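import Fermat.Agent.S16.H769.FRc
import Fermat.Prelude.Thm_UpperHalfPlane_qCoeff_heckeU

/-!
# S16, work package FR (part d): weight two, `G^ = -p U_p G`, and the cusp criterion
-/

set_option autoImplicit false
set_option linter.unusedSectionVars false

noncomputable section

namespace Fermat.Agent.S16.H769

open UpperHalfPlane ModularForm CongruenceSubgroup MatrixGroups ModularFormClass Filter
open Fermat.Agent.S20 (MF SF)
open scoped Manifold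

local notation "Sm" => ModularGroup.S
local notation "Tm" => ModularGroup.T

variable (p : ℕ) [Fact p.Prime]

/-- `M₂(SL₂ℤ) = 0`. -/
theorem MF_top_two : MF (⊤ : Subgroup SL(2, ℤ)) 2 = ⊥ := by
  rw [eq_bot_iff]
  intro f hf
  obtain ⟨g, rfl⟩ := Fermat.Agent.S20.C0h516.mem_MF_top_iff_exists.mp hf
  have : g = 0 := rank_zero_iff_forall_zero.mp levelOne_weight_two_rank_zero g
  rw [this]
  exact Submodule.zero_mem _

/-! ### periodicity and the value at `∞` -/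

lemma periodic_of_slash_T {k : ℤ} {F : ℍ → ℂ} (hT : F ∣[k] Tm = F) :
    Function.Periodic (F ∘ ofComplex) 1 := by
  intro w
  simp only [Function.comp_apply]
  by_cases hw : 0 < w.im
  · have hw' : 0 < (w + 1).im := by simpa using hw
    rw [ofComplex_apply_of_im_pos hw, ofComplex_apply_of_im_pos hw']
    have h := congrFun hT ⟨w, hw⟩
    rw [ModularForm.SL_slash_apply] at h
    have hden : denom Tm (⟨w, hw⟩ : ℍ) = 1 := by
      rw [ModularGroup.denom_apply, ModularGroup.coe_T]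
      simp
    rw [hden, one_zpow, mul_one] at h
    rw [← h]
    congr 1
    apply UpperHalfPlane.ext
    rw [UpperHalfPlane.modular_T_smul]
    simp [add_comm]
  · have hw' : ¬ 0 < (w + 1).im := by simpa using hw
    rw [ofComplex_apply_of_im_nonpos (not_lt.mp hw), ofComplex_apply_of_im_nonpos (not_lt.mp hw')]

lemma periodic_of_mem_MF {k : ℤ} {F : ℍ → ℂ} (hF : F ∈ MF (Gamma0 p) k) :
    Function.Periodic (F ∘ ofComplex) 1 :=
  periodic_of_slash_T (hF.2.1 _ (T_mem_Gamma0 p))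

lemma isBoundedAtImInfty_of_mem_MF {Γ : Subgroup SL(2, ℤ)} {k : ℤ} {F : ℍ → ℂ}
    (hF : F ∈ MF Γ k) : IsBoundedAtImInfty F := by
  have := hF.2.2 1
  rwa [SlashAction.slash_one] at this

/-- A bounded holomorphic `1`-periodic function with vanishing constant term is zero at `i∞`. -/
theorem isZeroAtImInfty_of_qCoeff_zero {F : ℍ → ℂ} (hper : Function.Periodic (F ∘ ofComplex) 1)
    (hhol : MDiff F) (hbdd : IsBoundedAtImInfty F) (h0 : qCoeff F 0 = 0) :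
    IsZeroAtImInfty F := by
  have hana := analyticAt_cuspFunction_zero one_pos hper hhol hbdd
  have hv : cuspFunction 1 F 0 = 0 := by
    rw [cuspFunction_apply_zero one_pos hana hper, ← qExpansion_coeff_zero one_pos hana hper]
    exact h0
  have hcomp : (cuspFunction 1 F ∘ fun τ : ℍ ↦ Function.Periodic.qParam 1 τ : ℍ → ℂ) = F := by
    funext τ
    simpa using eq_cuspFunction τ one_ne_zero hper
  have ht := hana.continuousAt.tendsto.comp (qParam_tendsto_atImInfty one_pos)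
  rw [hv, hcomp] at ht
  exact ht

theorem isZeroAtImInfty_of_mem_MF {k : ℤ} {F : ℍ → ℂ} (hF : F ∈ MF (Gamma0 p) k)
    (h0 : qCoeff F 0 = 0) : IsZeroAtImInfty F :=
  isZeroAtImInfty_of_qCoeff_zero (periodic_of_mem_MF p hF) hF.1 (isBoundedAtImInfty_of_mem_MF hF)
    h0

/-! ### the two cusps -/

theorem slash_heckeMatrix_hat (k : ℤ) (F : ℍ → ℂ) (j : ℕ) :
    hat p k F ∣[k] heckeMatrix p j = ((p : ℂ) ^ (k - 1)) • (F ∣[k] (Sm * Tm ^ j : SL(2, ℤ))) := by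
  have hp' : (p : ℂ) ≠ 0 := p_ne_zero' p
  have h1 : ((p : ℂ) ^ k) ≠ 0 := zpow_ne_zero _ hp'
  funext z
  rw [slash_heckeMatrix_apply k (p_ne_zero p), hat_apply, fricke_smul_heckeMatrix_smul,
    Pi.smul_apply, smul_eq_mul, ModularForm.SL_slash_apply, denom_ST_pow,
    coe_heckeMatrix_smul (p_ne_zero p), div_zpow, zpow_sub₀ hp', zpow_one, zpow_neg, zpow_neg]
  field_simp

lemma heckeMatrix_apply_10 (j : ℕ) : (heckeMatrix p j : GL (Fin 2) ℝ) 1 0 = 0 := by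
  have := val_heckeMatrix (p_ne_zero p) j
  simp [this]

theorem isZeroAtImInfty_slash_ST_pow {k : ℤ} {F : ℍ → ℂ}
    (h : IsZeroAtImInfty (hat p k F)) (j : ℕ) :
    IsZeroAtImInfty (F ∣[k] (Sm * Tm ^ j : SL(2, ℤ))) := by
  have hp' : ((p : ℂ) ^ (k - 1)) ≠ 0 := zpow_ne_zero _ (p_ne_zero' p)
  have h1 : IsZeroAtImInfty (hat p k F ∣[k] heckeMatrix p j) :=
    IsZeroAtImInfty.slash k (heckeMatrix_apply_10 p j) h
  rw [slash_heckeMatrix_hat] at h1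
  have h2 := h1.smul ((p : ℂ) ^ (k - 1))⁻¹
  rwa [smul_smul, inv_mul_cancel₀ hp', one_smul] at h2

/-- Every `γ ∈ SL₂(ℤ)` lies in `Γ₀(p)` or in some `Γ₀(p) S T^j`, `j < p`. -/
theorem exists_coset_rep (γ : SL(2, ℤ)) :
    γ ∈ Gamma0 p ∨ ∃ j : ℕ, γ * (Sm * Tm ^ j : SL(2, ℤ))⁻¹ ∈ Gamma0 p := by
  by_cases hc : ((γ 1 0 : ℤ) : ZMod p) = 0
  · left
    rwa [Gamma0_mem]
  · right
    refine ⟨(((γ 1 1 : ℤ) : ZMod p) * ((γ 1 0 : ℤ) : ZMod p)⁻¹).val, ?_⟩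
    rw [mul_inv_mem_Gamma0_iff]
    have h2 := coe_ST_pow (((γ 1 1 : ℤ) : ZMod p) * ((γ 1 0 : ℤ) : ZMod p)⁻¹).val
    have e3 : (Sm * Tm ^ (((γ 1 1 : ℤ) : ZMod p) * ((γ 1 0 : ℤ) : ZMod p)⁻¹).val : SL(2, ℤ)) 1 0
        = 1 := by rw [h2]; rfl
    have e4 : (Sm * Tm ^ (((γ 1 1 : ℤ) : ZMod p) * ((γ 1 0 : ℤ) : ZMod p)⁻¹).val : SL(2, ℤ)) 1 1
        = ((((γ 1 1 : ℤ) : ZMod p) * ((γ 1 0 : ℤ) : ZMod p)⁻¹).val : ℤ) := by rw [h2]; rfl
    rw [e3, e4, ← ZMod.intCast_zmod_eq_zero_iff_dvd]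
    push_cast
    rw [ZMod.natCast_zmod_val]
    field_simp
    ring

/-- Two cusps: if `F` and `F^` are zero at `i∞` then `F` is a cusp form. -/
theorem mem_SF_of_isZeroAtImInfty {k : ℤ} {F : ℍ → ℂ} (hF : F ∈ MF (Gamma0 p) k)
    (h0 : IsZeroAtImInfty F) (h0' : IsZeroAtImInfty (hat p k F)) : F ∈ SF (Gamma0 p) k := by
  refine ⟨hF.1, hF.2.1, fun γ => ?_⟩
  rcases exists_coset_rep p γ with h | ⟨j, h⟩
  · rwa [hF.2.1 γ h]
  · rw [slash_eq_of_mul_inv_mem p hF.2.1 h]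
    exact isZeroAtImInfty_slash_ST_pow p h0' j

/-- Two cusps: vanishing at `∞` of `F` and of `F^` makes `F` a cusp form. -/
theorem mem_SF_of_qCoeff_zero {k : ℤ} {F : ℍ → ℂ} (hF : F ∈ MF (Gamma0 p) k)
    (h0 : qCoeff F 0 = 0) (h0' : qCoeff (hat p k F) 0 = 0) : F ∈ SF (Gamma0 p) k :=
  mem_SF_of_isZeroAtImInfty p hF (isZeroAtImInfty_of_mem_MF p hF h0)
    (isZeroAtImInfty_of_mem_MF p (hat_mem_MF p hF) h0')

/-! ### weight two -/

lemma heckeU_hat_two {G : ℍ → ℂ} (hG : G ∈ MF (Gamma0 p) 2) :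
    heckeU 2 p (hat p 2 G) = (-(p : ℂ)) • G := by
  have hp' : (p : ℂ) ≠ 0 := p_ne_zero' p
  have h1 : tr p 2 G ∈ MF (⊤ : Subgroup SL(2, ℤ)) 2 := tr_mem_MF p hG
  rw [MF_top_two, Submodule.mem_bot] at h1
  rw [tr] at h1
  have h2 : ((p : ℂ) ^ ((1 : ℤ) - 2)) • heckeU 2 p (hat p 2 G) = -G := by
    rw [eq_neg_iff_add_eq_zero, add_comm]
    exact h1
  have h3 : (p : ℂ) • (((p : ℂ) ^ ((1 : ℤ) - 2)) • heckeU 2 p (hat p 2 G)) = (p : ℂ) • (-G) :=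
    congrArg (fun f => (p : ℂ) • f) h2
  rw [smul_smul, smul_neg] at h3
  have h4 : (p : ℂ) * (p : ℂ) ^ ((1 : ℤ) - 2) = 1 := by
    rw [show ((1 : ℤ) - 2) = -1 by norm_num, zpow_neg_one, mul_inv_cancel₀ hp']
  rw [h4, one_smul] at h3
  rw [h3]
  funext z
  simp

/-- Weight 2: `M₂(SL₂ℤ) = 0` forces `G^ = -p U_p G`. -/
theorem hat_two {G : ℍ → ℂ} (hG : G ∈ MF (Gamma0 p) 2) :
    hat p 2 G = (-(p : ℂ)) • heckeU 2 p G := by
  have hp' : (p : ℂ) ≠ 0 := p_ne_zero' p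
  have h1 := heckeU_hat_two p (hat_mem_MF p hG)
  rw [hat_hat p even_two, heckeU_smul] at h1
  -- h1 : p^2 • U G = -p • G^
  have h2 : (-(p : ℂ))⁻¹ • (((p : ℂ) ^ (2 : ℤ)) • heckeU 2 p G)
      = (-(p : ℂ))⁻¹ • ((-(p : ℂ)) • hat p 2 G) := congrArg (fun f => (-(p : ℂ))⁻¹ • f) h1
  rw [smul_smul, smul_smul, inv_mul_cancel₀ (neg_ne_zero.mpr hp'), one_smul] at h2
  rw [← h2]
  congr 1
  rw [show ((2 : ℤ)) = 1 + 1 by norm_num, zpow_add₀ hp', zpow_one]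
  field_simp

theorem heckeU_two_mem {G : ℍ → ℂ} (hG : G ∈ MF (Gamma0 p) 2) :
    heckeU 2 p G ∈ MF (Gamma0 p) 2 := by
  have hp' : (-(p : ℂ)) ≠ 0 := neg_ne_zero.mpr (p_ne_zero' p)
  have h1 : hat p 2 G ∈ MF (Gamma0 p) 2 := hat_mem_MF p hG
  rw [hat_two p hG] at h1
  have := (MF (Gamma0 p) 2).smul_mem (-(p : ℂ))⁻¹ h1
  rwa [smul_smul, inv_mul_cancel₀ hp', one_smul] at this

theorem heckeU_two_sq {G : ℍ → ℂ} (hG : G ∈ MF (Gamma0 p) 2) :
    heckeU 2 p (heckeU 2 p G) = G := by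
  have hp' : (-(p : ℂ)) ≠ 0 := neg_ne_zero.mpr (p_ne_zero' p)
  have h1 := heckeU_hat_two p hG
  rw [hat_two p hG, heckeU_smul] at h1
  have h2 : (-(p : ℂ))⁻¹ • ((-(p : ℂ)) • heckeU 2 p (heckeU 2 p G))
      = (-(p : ℂ))⁻¹ • ((-(p : ℂ)) • G) := congrArg (fun f => (-(p : ℂ))⁻¹ • f) h1
  rwa [smul_smul, smul_smul, inv_mul_cancel₀ hp', one_smul, one_smul] at h2

/-- (C) a weight 2 form on `Γ₀(p)` with vanishing constant term at `∞` is a cusp form. -/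
theorem cusp_crit_aux {G : ℍ → ℂ} (hG : G ∈ MF (Gamma0 p) 2) (h0 : qCoeff G 0 = 0) :
    G ∈ SF (Gamma0 p) 2 := by
  have hU : heckeU 2 p G ∈ MF (Gamma0 p) 2 := heckeU_two_mem p hG
  have hU0 : qCoeff (heckeU 2 p G) 0 = 0 := by
    rw [UpperHalfPlane.qCoeff_heckeU (periodic_of_mem_MF p hG) hG.1
      (isBoundedAtImInfty_of_mem_MF hG) 2 (p_ne_zero p) 0, coeffHeckeU_apply, zero_mul, h0]
  have h1 : IsZeroAtImInfty (heckeU 2 p G) := isZeroAtImInfty_of_mem_MF p hU hU0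
  have h2 : IsZeroAtImInfty (hat p 2 G) := by
    rw [hat_two p hG]
    exact h1.smul _
  exact mem_SF_of_isZeroAtImInfty p hG (isZeroAtImInfty_of_mem_MF p hG h0) h2

/-- (C) in the exact shape of `Skel.CuspCrit p`. -/
theorem cusp_crit :
    ∀ G ∈ MF (Gamma0 p) 2, qCoeff G 0 = 0 → G ∈ SF (Gamma0 p) 2 :=
  fun _ hG h0 => cusp_crit_aux p hG h0

end Fermat.Agent.S16.H769
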